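import Fermat.Agent.BAD.AtP.Eis.Series
import Fermat.Agent.BAD.Trace
import Fermat.Agent.BAD.AL.SConj
import Fermat.Agent.BAD.SerPS

/-!
# The quotient of `E₄` by the square of the weight two unit at a place over `3`

It lies in the ring of level `M` and is congruent to the Hasse function on the component at `∞`;
the residual series of `E₄` is `1`.
-/

set_option autoImplicit false

open UpperHalfPlane hiding I
open CongruenceSubgroup
open scoped MatrixGroups ModularForm Manifold
open ModularForm (E₄)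

noncomputable section

namespace FermatAgent.BAD.AtP

open FermatAgent.ES (BRing BSub HasExp HasLExp SerIn lexp lexp_eq AuxLevel CPlace IsTwist GoodRoot
  zetaC auxW auxSer LeadUnit)

/-- `E₄` is a form of weight four with trivial multiplier. -/
theorem isTwist_eFour (Γ : Subgroup SL(2, ℤ)) :
    IsTwist Γ ((2 * 2 : ℕ) : ℤ) 1 (E₄ : ℍ → ℂ) where
  mdiff := ModularFormClass.holo E₄
  slash γ := by
    refine (Curve.slash_E (γ : SL(2, ℤ)) E₄).trans (funext fun τ => ?_)
    simp
  bdd γ := by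
    rw [show ((2 * 2 : ℕ) : ℤ) = 4 from rfl, Curve.slash_E γ E₄]
    exact ModularFormClass.bdd_at_infty E₄

/-- The expansion of `E₄` at `∞`. -/
theorem hasExp_eFour :
    HasExp 1 (E₄ : ℍ → ℂ) (ModularCurve.eisenstein4.map (Int.castRingHom ℂ)) := by
  have h := HasExp.exists_of_bounded (M := 1) (f := (E₄ : ℍ → ℂ))
    (by
      rw [Nat.cast_one]
      exact SlashInvariantFormClass.periodic_comp_ofComplex E₄ one_mem_strictPeriods_SL)
    (ModularFormClass.holo E₄) (ModularFormClass.bdd_at_infty E₄)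
  rw [Nat.cast_one] at h
  rwa [Curve.qExpansion_E4] at h

variable (P : CPlace 3)

theorem abv_coeff_eisenstein4_lt (e : ℕ) :
    P.abv ((PowerSeries.coeff e (ModularCurve.eisenstein4 - 1) : ℤ) : ℂ) < 1 := by
  obtain ⟨d, hd⟩ : (3 : ℤ) ∣ PowerSeries.coeff e (ModularCurve.eisenstein4 - 1) := by
    rw [map_sub, ModularCurve.eisenstein4, PowerSeries.coeff_mk, PowerSeries.coeff_one]
    split
    · simp
    · rw [sub_zero]; exact dvd_mul_of_dvd_left (by norm_num) _
  rw [hd, Int.cast_mul, map_mul]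
  exact mul_lt_one_of_nonneg_of_lt_one_left (P.abv.nonneg _)
    (by simpa using P.lt_one) (P.mem_ring.mp (intCast_mem P.ring d))

/-- The residual series of `E₄` is `1`. -/
theorem map_res_eisenstein4 :
    ((ModularCurve.eisenstein4).map (Int.castRingHom P.ring)).map P.res = 1 := by
  rw [← sub_eq_zero, ← map_one (PowerSeries.map P.res),
    ← map_one (PowerSeries.map (Int.castRingHom P.ring)), ← map_sub, ← map_sub]
  ext e
  rw [PowerSeries.coeff_map, PowerSeries.coeff_map, map_zero, P.res_eq_zero_iff]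
  rcases eq_or_ne e 0 with rfl | he
  · simp
  · simpa [PowerSeries.coeff_one, he] using abv_coeff_eisenstein4_lt P e

variable {M : ℕ} [NeZero M] (haux : AuxLevel M 2) (hM : M.Coprime 3)

theorem hasExp_eFour_level :
    HasExp M (E₄ : ℍ → ℂ) ((PowerSeries.expand M (NeZero.ne M) ModularCurve.eisenstein4).map
      (Int.castRingHom ℂ)) := by
  rw [PowerSeries.map_expand]
  exact hasExp_widen (NeZero.ne M) hasExp_eFour

theorem lexp_eFour_div (γ : SL(2, ℤ)) :
    lexp M γ (fun τ => (E₄ : ℍ → ℂ) τ / auxW haux τ ^ 2) =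
      HahnSeries.ofPowerSeries ℤ ℂ ((PowerSeries.expand M (NeZero.ne M)
        ModularCurve.eisenstein4).map (Int.castRingHom ℂ)) * (auxSer haux γ ^ 2)⁻¹ := by
  refine lexp_eq (ES.hasLExp_form_div haux ?_)
  rw [show ((2 * 2 : ℕ) : ℤ) = 4 from rfl, Curve.slash_E γ E₄]
  exact hasExp_eFour_level

theorem serIn_ofPowerSeries_int {A : Subring ℂ} (c : PowerSeries ℤ) :
    SerIn A (HahnSeries.ofPowerSeries ℤ ℂ (c.map (Int.castRingHom ℂ))) :=
  serIn_ofPowerSeries_of_coeff fun e => by rw [PowerSeries.coeff_map]; exact intCast_mem A _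

theorem eFour_div_mem {A : Subring ℂ} (hA : GoodRoot M A (zetaC M)) :
    (fun τ => (E₄ : ℍ → ℂ) τ / auxW haux τ ^ 2) ∈ BRing M A :=
  ⟨ES.form_div_mem haux (Γ := (⊤ : Subgroup SL(2, ℤ))) le_top (isTwist_eFour ⊤), fun γ => by
    rw [lexp_eFour_div haux γ]
    obtain ⟨k, hk⟩ := ES.exists_leadUnit_auxSer haux hA γ
    exact (serIn_ofPowerSeries_int _).mul (hk.pow 2).inv.serIn⟩

/-- `E₄ / W²` in the ring of level `M`. -/
def eFourB : BRing M P.ring := ⟨_, eFour_div_mem haux (P.goodRoot hM)⟩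

/-- `E₄ / W²` as a function. -/
theorem coe_eFourB :
    ((eFourB P haux hM : BRing M P.ring) : ℍ → ℂ) = fun τ => (E₄ : ℍ → ℂ) τ / auxW haux τ ^ 2 :=
  rfl

/-- **`E₄ / W²` is congruent to the Hasse function on the component at `∞`.** -/
theorem eFour_sub_hasseL_mem [Fact (Nat.Prime 3)] :
    raiseL M (eFourB P haux hM) -
        hasseL (q := 3) haux hM (P.goodRoot hM) goodRoot_zeta ∈
      (pInf le_rfl : Ideal (LRing 3 M P.ring)) := by
  intro γ hγ
  set H := hasseL (q := 3) haux hM (P.goodRoot hM) goodRoot_zeta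
  have hH := hasse_ser (q := 3) haux hM (P.goodRoot hM) goodRoot_zeta (P := P) le_rfl
    (show (3 : ℕ) ≠ 2 by norm_num) (γ := γ) hγ
  rw [show (3 : ℕ) - 1 = 2 from rfl] at hH
  set W := expandL 3 (wSer haux γ ^ 2)
  set e4 := HahnSeries.ofPowerSeries ℤ ℂ
    ((PowerSeries.expand M (NeZero.ne M) ModularCurve.eisenstein4).map (Int.castRingHom ℂ))
  have hW : W ≠ 0 := (map_ne_zero_iff _ (expandL_injective 3)).mpr
    (pow_ne_zero _ (wSer_ne_zero haux γ))
  have hWi : SerIn P.ring W⁻¹ := by
    rw [← map_inv₀]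
    refine expandL_serIn ?_
    obtain ⟨k, hk⟩ := leadUnit_auxW_conj haux (P.goodRoot hM) γ
    exact (hk.pow 2).inv.serIn
  have h4 : P.SerLT (expandL 3 e4 - 1) := by
    rw [show (1 : LaurentSeries ℂ) = expandL 3 1 from (map_one _).symm, ← map_sub]
    have hd : ∀ i, P.abv ((e4 - 1).coeff i) < 1 := by
      intro i
      rcases lt_or_ge i 0 with hi | hi
      · rw [HahnSeries.coeff_sub, ModularCurve.ofPowerSeries_coeff_of_neg _ hi,
          HahnSeries.coeff_one, if_neg hi.ne]
        simp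
      · lift i to ℕ using hi
        rw [show (1 : LaurentSeries ℂ) = HahnSeries.ofPowerSeries ℤ ℂ 1 from (map_one _).symm,
          show e4 = HahnSeries.ofPowerSeries ℤ ℂ _ from rfl, ← map_sub,
          HahnSeries.ofPowerSeries_apply_coeff,
          ← map_one (PowerSeries.map (Int.castRingHom ℂ)), ← map_sub, PowerSeries.coeff_map]
        by_cases h : M ∣ i
        · obtain ⟨j, rfl⟩ := h
          rw [show (1 : PowerSeries ℤ) = PowerSeries.expand M (NeZero.ne M) 1 from (map_one _).symm,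
            ← map_sub, PowerSeries.coeff_expand_mul]
          exact abv_coeff_eisenstein4_lt P j
        · rw [show (1 : PowerSeries ℤ) = PowerSeries.expand M (NeZero.ne M) 1 from (map_one _).symm,
            ← map_sub, PowerSeries.coeff_expand_of_not_dvd M _ _ h]
          simp
    intro i
    by_cases hi : (3 : ℤ) ∣ i
    · obtain ⟨j, rfl⟩ := hi
      rw [show (3 : ℤ) * j = ((3 : ℕ) : ℤ) * j by norm_num, expandL_coeff_mul]
      exact hd j
    · rw [expandL_coeff_of_not_dvd 3 _ hi, map_zero]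
      exact one_pos
  rw [map_sub, serAt_raiseL, coe_eFourB,
    lexp_eFour_div haux γ, map_mul, map_inv₀,
    show expandL 3 (auxSer haux γ ^ 2) = W from rfl]
  have e : expandL 3 e4 * W⁻¹ - serAt M P.ring 3 γ H =
      ((expandL 3 e4 - 1) - (serAt M P.ring 3 γ H * W - 1)) * W⁻¹ := by
    rw [sub_sub_sub_cancel_right, sub_mul, mul_assoc, mul_inv_cancel₀ hW, mul_one]
  rw [e]
  exact (h4.sub hH).mul_serIn hWi

end FermatAgent.BAD.AtP
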