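import Fermat.Agent.BAD.AtP.Eis.Series
import Fermat.Agent.Period.Gamma0Count

/-!
# A nowhere vanishing form of weight four on `Γ₀(2)`

Its residual logarithmic derivative at a place over `3` is an eigen series with eigenvalue `ℓ + 1`.
-/

set_option autoImplicit false

open UpperHalfPlane hiding I
open CongruenceSubgroup
open scoped MatrixGroups ModularForm Manifold Derivative
open EisensteinSeries (E2)
open Filter Topology

noncomputable section

namespace FermatAgent.BAD.AtP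

open FermatAgent.ES (BRing BSub HasExp Adm AuxLevel CPlace IsTwist GoodRoot zetaC dif vmul embVec
  auxW act LeadUnit)
open FermatAgent.Period.Eis (e2Ser epSer epFun)

/-- `(0, 1)`. -/
def ev0 : Fin 2 → ZMod 2 := ![0, 1]
/-- `(1, 0)`. -/
def ev1 : Fin 2 → ZMod 2 := ![1, 0]
/-- `(1, 1)`. -/
def ev2 : Fin 2 → ZMod 2 := ![1, 1]

theorem adm01 : Adm 2 ev0 ev1 := ⟨by decide, by decide, by decide, by decide⟩

theorem adm02 : Adm 2 ev0 ev2 := ⟨by decide, by decide, by decide, by decide⟩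

theorem dif_embVec {M m : ℕ} [NeZero M] [NeZero m] (h : m ∣ M) (v w : Fin 2 → ZMod m) :
    dif M (embVec h v) (embVec h w) = dif m v w := by
  funext τ
  have hm : (m : ℂ) ≠ 0 := Nat.cast_ne_zero.mpr (NeZero.ne m)
  set k := M / m
  have hk : (M : ℂ) = (m : ℂ) * (k : ℂ) := by exact_mod_cast (Nat.mul_div_cancel' h).symm
  have hk0 : (k : ℂ) ≠ 0 := fun h0 => by
    rw [h0, mul_zero] at hk; exact NeZero.ne M (by exact_mod_cast hk)
  have hl : ∀ (u : Fin 2 → ZMod m) i,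
      ((((k : ℤ) * ES.liftVec m u i : ℤ)) : ZMod M) = embVec h u i := fun u i => by
    conv_rhs => rw [embVec, ← ES.cast_liftVec m u i, ES.embHom_intCast]
    push_cast
    ring
  have hz : ∀ u : Fin 2 → ZMod m, ES.zPt M (fun i => (k : ℤ) * ES.liftVec m u i) τ =
      ES.zPt m (ES.liftVec m u) τ := fun u => by
    simp only [ES.zPt, hk]
    push_cast
    field_simp
  rw [ES.dif_eq_of_lift M (hl v) (hl w), hz, hz, dif]

/-- The form of weight four. -/
def psiTwo : ℍ → ℂ := fun τ => dif 2 ev0 ev1 τ * dif 2 ev0 ev2 τ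

theorem psiTwo_ne_zero (τ : ℍ) : psiTwo τ ≠ 0 :=
  mul_ne_zero (adm01.dif_ne_zero τ) (adm02.dif_ne_zero τ)

theorem psiTwo_eq : psiTwo = dif 2 ev0 ev1 * dif 2 ev0 ev2 := rfl

theorem slash_psiTwo (γ : SL(2, ℤ)) : psiTwo ∣[(4 : ℤ)] γ =
    dif 2 (vmul 2 ev0 γ) (vmul 2 ev1 γ) * dif 2 (vmul 2 ev0 γ) (vmul 2 ev2 γ) := by
  rw [psiTwo_eq, show (4 : ℤ) = 2 + 2 by norm_num, ModularForm.mul_slash_SL2, ES.dif_slash,
    ES.dif_slash]
  rfl

theorem hasExp_slash_psiTwo (γ : SL(2, ℤ)) : HasExp 2 (psiTwo ∣[(4 : ℤ)] γ)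
    (ES.difSeries 2 (zetaC 2) (vmul 2 ev0 γ) (vmul 2 ev1 γ) *
      ES.difSeries 2 (zetaC 2) (vmul 2 ev0 γ) (vmul 2 ev2 γ)) := by
  rw [slash_psiTwo]
  exact (ES.hasExp_dif 2 (adm01.mul γ).left (adm01.mul γ).right).mul
    (ES.hasExp_dif 2 (adm02.mul γ).left (adm02.mul γ).right)

theorem slash_psiTwo_of_mem {γ : SL(2, ℤ)} (hγ : γ ∈ Gamma0 2) :
    psiTwo ∣[(4 : ℤ)] γ = psiTwo := by
  have key : ∀ x : Matrix (Fin 2) (Fin 2) (ZMod 2), x.det = 1 → x 1 0 = 0 →
      Matrix.vecMul ev0 x = ev0 ∧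
        ((Matrix.vecMul ev1 x = ev1 ∧ Matrix.vecMul ev2 x = ev2) ∨
          (Matrix.vecMul ev1 x = ev2 ∧ Matrix.vecMul ev2 x = ev1)) := by
    decide
  have hdet : (ES.modMat 2 γ).det = 1 := by
    rw [ES.modMat, ← RingHom.mapMatrix_apply, ← RingHom.map_det, γ.det_coe, map_one]
  obtain ⟨h0, h | h⟩ := key _ hdet (by simpa [ES.modMat] using Gamma0_mem.mp hγ) <;>
    rw [slash_psiTwo] <;> simp only [vmul, h0, h.1, h.2]
  · rfl
  · rw [mul_comm]; rfl

theorem mdiff_psiTwo : MDiff psiTwo :=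
  ((ES.hasExp_dif 2 adm01.left adm01.right).mul
    (ES.hasExp_dif 2 adm02.left adm02.right)).mdifferentiable

theorem isTwist_psiTwo : IsTwist (Gamma0 2) ((2 * 2 : ℕ) : ℤ) 1 psiTwo where
  mdiff := mdiff_psiTwo
  slash γ := by
    refine (slash_psiTwo_of_mem γ.2).trans (funext fun τ => ?_)
    simp
  bdd γ := (hasExp_slash_psiTwo γ).isBounded

theorem periodic_of_slash_T {f : ℍ → ℂ} {k : ℤ} (h : f ∣[k] ModularGroup.T = f) :
    Function.Periodic (f ∘ ofComplex) ((1 : ℕ) : ℝ) := by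
  rw [Nat.cast_one]
  refine Curve.periodic_comp_ofComplex_of_vadd fun τ => ?_
  have h' := congrFun h τ
  rw [ModularForm.SL_slash_apply] at h'
  rw [← modular_T_smul]
  refine Eq.trans ?_ h'
  simp [denom, ModularGroup.coe_T]

theorem hasExp_psiTwo : HasExp 1 psiTwo (qExpansion ((1 : ℕ) : ℝ) psiTwo) :=
  HasExp.exists_of_bounded (periodic_of_slash_T (slash_psiTwo_of_mem Flat.Kummer.T_mem_Gamma0))
    mdiff_psiTwo
    ((ES.hasExp_dif 2 adm01.left adm01.right).mul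
      (ES.hasExp_dif 2 adm02.left adm02.right)).isBounded

/-- The series of the form. -/
def psiSer : PowerSeries ℂ := qExpansion ((1 : ℕ) : ℝ) psiTwo

theorem coeff_psiSer (e : ℕ) : PowerSeries.coeff e psiSer =
    PowerSeries.coeff (2 * e)
      (ES.difSeries 2 (zetaC 2) ev0 ev1 * ES.difSeries 2 (zetaC 2) ev0 ev2) := by
  have h := (hasExp_widen two_ne_zero hasExp_psiTwo).series_unique
    ((ES.hasExp_dif 2 adm01.left adm01.right).mul (ES.hasExp_dif 2 adm02.left adm02.right))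
  rw [← h, PowerSeries.coeff_expand_mul]
  rfl

theorem psiSer_coeff_mem {A : Subring ℂ} (hA : GoodRoot 2 A (zetaC 2)) :
    (∀ e, PowerSeries.coeff e psiSer ∈ A) ∧ ES.UnitIn A (PowerSeries.constantCoeff psiSer) := by
  obtain ⟨m1, -, u1⟩ := ES.difSeries_lead hA adm01.left adm01.right adm01.ne adm01.ne_neg
  obtain ⟨m2, -, u2⟩ := ES.difSeries_lead hA adm02.left adm02.right adm02.ne adm02.ne_neg
  refine ⟨fun e => ?_, ?_⟩
  · rw [coeff_psiSer, PowerSeries.coeff_mul]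
    exact A.sum_mem fun x _ => A.mul_mem (m1 _) (m2 _)
  · have hz : min (ES.leadIdx ev0) (ES.leadIdx ev1) = 0 := by
      rw [show ES.leadIdx ev0 = 0 from ES.leadIdx_eq_zero.mpr rfl]; exact Nat.zero_min _
    have hz' : min (ES.leadIdx ev0) (ES.leadIdx ev2) = 0 := by
      rw [show ES.leadIdx ev0 = 0 from ES.leadIdx_eq_zero.mpr rfl]; exact Nat.zero_min _
    rw [hz] at u1
    rw [hz'] at u2
    rw [← PowerSeries.coeff_zero_eq_constantCoeff_apply, coeff_psiSer, mul_zero,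
      PowerSeries.coeff_mul, Finset.Nat.antidiagonal_zero, Finset.sum_singleton]
    exact u1.mul u2

theorem isAlgebraic_coeff_psiSer (e : ℕ) : IsAlgebraic ℚ (PowerSeries.coeff e psiSer) := by
  let A : Subring ℂ := (algebraicClosure ℚ ℂ).toSubring
  have hmem : zetaC 2 ∈ A := by
    show zetaC 2 ∈ algebraicClosure ℚ ℂ
    rw [mem_algebraicClosure_iff]
    exact ((ES.zetaC_isPrimitiveRoot 2).isIntegral (by norm_num)).tower_top.isAlgebraic
  have hA : GoodRoot 2 A (zetaC 2) := by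
    refine ⟨ES.zetaC_isPrimitiveRoot 2, hmem, fun i hi => ?_⟩
    have h1 : (1 : ℂ) - zetaC 2 ^ i ∈ A := A.sub_mem A.one_mem (A.pow_mem hmem i)
    exact ⟨(ES.zetaC_goodRoot_top.unit_one_sub i hi).1, h1, (algebraicClosure ℚ ℂ).inv_mem h1⟩
  exact mem_algebraicClosure_iff.mp ((psiSer_coeff_mem hA).1 e)

/-- The derivative of the form, corrected and divided by the form. -/
def psiLog : ℍ → ℂ := fun τ => Derivative.serreDerivative ((4 : ℤ) : ℂ) psiTwo τ / psiTwo τ

theorem slash_psiLog (γ : SL(2, ℤ)) : psiLog ∣[(2 : ℤ)] γ =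
    fun τ => Derivative.serreDerivative ((4 : ℤ) : ℂ) (psiTwo ∣[(4 : ℤ)] γ) τ /
      (psiTwo ∣[(4 : ℤ)] γ) τ := by
  funext τ
  rw [← Derivative.serreDerivative_slash_equivariant (k := 4) mdiff_psiTwo]
  simp only [ModularForm.SL_slash_apply, psiLog]
  have hd := UpperHalfPlane.denom_ne_zero (γ : GL (Fin 2) ℝ) τ
  have := psiTwo_ne_zero (γ • τ)
  simp only [zpow_neg,
    show (4 : ℤ) = ((4 : ℕ) : ℤ) by norm_num, show (2 : ℤ) = ((2 : ℕ) : ℤ) by norm_num,
    zpow_natCast]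
  rw [show ((4 : ℕ) : ℤ) + ((2 : ℕ) : ℤ) = ((6 : ℕ) : ℤ) by norm_num, zpow_natCast]
  field_simp

theorem isBounded_psiLog_slash (γ : SL(2, ℤ)) :
    IsBoundedAtImInfty (psiLog ∣[(2 : ℤ)] γ) := by
  rw [slash_psiLog, slash_psiTwo]
  obtain ⟨u, hu, ⟨a, ha, hua⟩, hdu⟩ := ES.exists_dif_unit (adm01.mul γ)
  obtain ⟨u', hu', ⟨a', ha', hua'⟩, hdu'⟩ := ES.exists_dif_unit (adm02.mul γ)
  set i := ES.pairIdx (vmul 2 ev0 γ) (vmul 2 ev1 γ) + ES.pairIdx (vmul 2 ev0 γ) (vmul 2 ev2 γ)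
  set F := fun τ => u τ * u' τ
  have hF : MDiff F := hu.mul hu'
  have e : dif 2 (vmul 2 ev0 γ) (vmul 2 ev1 γ) * dif 2 (vmul 2 ev0 γ) (vmul 2 ev2 γ) =
      fun τ => ES.qm 2 τ ^ i * F τ := funext fun τ => by
    rw [Pi.mul_apply, hdu, hdu', zpow_add₀ (ES.qm_ne_zero 2 τ)]
    ring
  have hne : ∀ τ, F τ ≠ 0 := fun τ => mul_ne_zero
    (fun h => (adm01.mul γ).dif_ne_zero τ (by rw [hdu, h, mul_zero]))
    (fun h => (adm02.mul γ).dif_ne_zero τ (by rw [hdu', h, mul_zero]))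
  have e' : (fun τ => Derivative.serreDerivative ((4 : ℤ) : ℂ)
      (fun τ => ES.qm 2 τ ^ i * F τ) τ / (ES.qm 2 τ ^ i * F τ)) =
      fun τ => ((i : ℂ) / (2 : ℕ) * F τ + D F τ) * (F τ)⁻¹ - ((4 : ℤ) : ℂ) * 12⁻¹ * E2 τ := by
    funext τ
    have h0 := zpow_ne_zero i (ES.qm_ne_zero 2 τ)
    have h1 := hne τ
    rw [Derivative.serreDerivative_apply, ES.deriv_qm_zpow_mul i hF]
    field_simp
  rw [e, e']
  have hFb : IsBoundedAtImInfty F := (hua.mul hua').isBigO_one ℝ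
  have hA : IsBoundedAtImInfty fun τ => ((i : ℂ) / (2 : ℕ) * F τ + D F τ) * (F τ)⁻¹ :=
    (BoundedAtFilter.add ((const_boundedAtFilter _ _).mul hFb)
      (ES.isBounded_deriv hF hFb)).mul
      (((hua.mul hua').inv₀ (mul_ne_zero ha ha')).isBigO_one ℝ)
  have hB : IsBoundedAtImInfty fun τ => ((4 : ℤ) : ℂ) * 12⁻¹ * E2 τ :=
    (const_boundedAtFilter atImInfty (((4 : ℤ) : ℂ) * 12⁻¹)).mul
      EisensteinSeries.isBoundedAtImInfty_E2
  exact Asymptotics.IsBigO.sub hA hB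

theorem psiLog_mem : psiLog ∈ Period.modFns (Gamma0 2) 2 := by
  refine ⟨?_, fun γ hγ => ?_, isBounded_psiLog_slash⟩
  · have h1 := Derivative.serreDerivative_mdifferentiable ((4 : ℤ) : ℂ) mdiff_psiTwo
    rw [UpperHalfPlane.mdifferentiable_iff] at h1 ⊢
    exact (h1.div (UpperHalfPlane.mdifferentiable_iff.mp mdiff_psiTwo)
      fun z _ => psiTwo_ne_zero _).congr fun z _ => rfl
  · rw [slash_psiLog, slash_psiTwo_of_mem hγ]
    rfl

theorem eq_zero_of_mem_modFns_two {g : ℍ → ℂ} (hg : g ∈ Period.modFns (Gamma0 2) 2)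
    {c : PowerSeries ℂ} (hc : HasExp 1 g c) (h0 : PowerSeries.constantCoeff c = 0) : g = 0 := by
  have hq : qExpansion (1 : ℝ) g = c := by
    have h := HasExp.exists_of_bounded (M := 1)
      (periodic_of_slash_T (hg.2.1 _ Flat.Kummer.T_mem_Gamma0))
      hg.1 (by simpa [SlashAction.slash_one] using hg.2.2 1)
    rw [Nat.cast_one] at h
    exact h.series_unique hc
  refine congrArg DFunLike.coe
    (ModularForm.sturm_bound_Gamma0 2 (Period.toModularForm hg) fun n hn => ?_)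
  have hi : (Gamma0 2).index ≤ 3 := by
    rw [Period.index_Gamma0]
    rw [ModularCurve.dedekindPsi]
    decide +kernel
  obtain rfl : n = 0 := by omega
  show PowerSeries.coeff 0 (qExpansion (1 : ℝ) g) = 0
  rw [hq, PowerSeries.coeff_zero_eq_constantCoeff_apply, h0]

theorem hasExp_epFun : HasExp 1 (epFun 2) ((epSer 2).map (Int.castRingHom ℂ)) := by
  have hmem := Period.Eis.epFun_mem (p := 2)
  have h := HasExp.exists_of_bounded (M := 1)
    (periodic_of_slash_T (hmem.2.1 _ Flat.Kummer.T_mem_Gamma0))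
    hmem.1 (by simpa [SlashAction.slash_one] using hmem.2.2 1)
  rw [Nat.cast_one] at h
  rwa [show qExpansion (1 : ℝ) (epFun 2) = (epSer 2).map (Int.castRingHom ℂ) from
    Period.Eis.qS_epFun] at h

theorem thetaPS_psiSer : ∃ a : ℂ, thetaPS psiSer = psiSer *
    (PowerSeries.C (3⁻¹ : ℂ) * e2Ser.map (Int.castRingHom ℂ) +
      PowerSeries.C a * (epSer 2).map (Int.castRingHom ℂ)) := by
  have hg := psiLog_mem
  have hs := HasExp.exists_of_bounded (M := 1)
    (periodic_of_slash_T (hg.2.1 _ Flat.Kummer.T_mem_Gamma0))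
    hg.1 (by simpa [SlashAction.slash_one] using hg.2.2 1)
  set a := PowerSeries.constantCoeff (qExpansion ((1 : ℕ) : ℝ) psiLog)
  refine ⟨a, ?_⟩
  have hdiff := hs.sub (hasExp_epFun.smul a)
  have hzero := eq_zero_of_mem_modFns_two
    (sub_mem hg (Submodule.smul_mem _ a (Period.Eis.epFun_mem (p := 2))))
    (hdiff.congr_fun fun τ => by simp)
    (by
      rw [map_sub, map_mul, PowerSeries.constantCoeff_C,
        ← PowerSeries.coeff_zero_eq_constantCoeff_apply,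
        ← PowerSeries.coeff_zero_eq_constantCoeff_apply ((epSer 2).map (Int.castRingHom ℂ)),
        PowerSeries.coeff_map, Period.Eis.coeff_zero_epSer]
      simp [a])
  have hd : HasExp 1 (D psiTwo) (thetaPS psiSer) :=
    (hasExp_deriv hasExp_psiTwo).congr_fun fun τ => by simp
  refine hd.series_unique ((hasExp_psiTwo.mul
    ((hasExp_E2.smul (3⁻¹ : ℂ)).add (hasExp_epFun.smul a))).congr_fun fun τ => ?_)
  have h := congrFun hzero τ
  simp only [Pi.sub_apply, Pi.smul_apply, smul_eq_mul, Pi.zero_apply, sub_eq_zero, psiLog,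
    Derivative.serreDerivative_apply] at h
  rw [div_eq_iff (psiTwo_ne_zero τ)] at h
  simp only [Pi.mul_apply, Pi.add_apply]
  push_cast at h
  linear_combination h

/-- The form as a unit of the rings of functions. -/
theorem exists_isUnit_psiTwo {M : ℕ} [NeZero M] (haux : AuxLevel M 2) {A : Subring ℂ}
    (hA : GoodRoot M A (zetaC M)) :
    ∃ u : BRing M A, IsUnit u ∧ (u : ℍ → ℂ) = fun τ => psiTwo τ / auxW haux τ ^ 2 := by
  have hE : ∀ {v w : Fin 2 → ZMod 2}, Adm 2 v w →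
      Adm M (embVec haux.dvd v) (embVec haux.dvd w) := fun h => ES.adm_embVec haux.dvd h
  have hr : ∀ {v w v' w' : Fin 2 → ZMod M}, Adm M v w → Adm M v' w' →
      ES.ratio M v w v' w' ∈ BRing M A := fun h h' =>
    ⟨ES.ratio_mem h.left h.right h', fun γ => by
      rw [ES.lexp_ratio h.left h.right h']
      exact (ES.leadUnit_ratioSeries hA (h.mul γ) (h'.mul γ)).serIn⟩
  have hW := ES.adm_ref (M := M) haux
  set B := ES.refB (M := M) haux.dvd
  set R := ES.refA (M := M) haux.dvd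
  refine ⟨⟨ES.ratio M (embVec haux.dvd ev0) (embVec haux.dvd ev1) B R *
      ES.ratio M (embVec haux.dvd ev0) (embVec haux.dvd ev2) B R,
    mul_mem (hr (hE adm01) hW) (hr (hE adm02) hW)⟩, ?_, ?_⟩
  · refine IsUnit.of_mul_eq_one
      ⟨ES.ratio M B R (embVec haux.dvd ev0) (embVec haux.dvd ev1) *
        ES.ratio M B R (embVec haux.dvd ev0) (embVec haux.dvd ev2),
        mul_mem (hr hW (hE adm01)) (hr hW (hE adm02))⟩ (Subtype.ext (funext fun τ => ?_))
    have h1 := hW.dif_ne_zero τ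
    have h2 := (hE adm01).dif_ne_zero τ
    have h3 := (hE adm02).dif_ne_zero τ
    simp only [MulMemClass.mk_mul_mk, Pi.mul_apply, ES.ratio, OneMemClass.coe_one, Pi.one_apply]
    field_simp
  · funext τ
    have h1 := ES.auxW_ne_zero haux τ
    simp only [Pi.mul_apply, ES.ratio, dif_embVec, psiTwo]
    rw [show dif M B R = auxW haux from rfl]
    field_simp

/-- **The form of weight four at a place over `3`.** -/
theorem exists_psi (P : CPlace 3) :
    ∃ (Ψ : ℍ → ℂ) (c : PowerSeries P.ring), IsTwist (Gamma0 2) ((2 * 2 : ℕ) : ℤ) 1 Ψ ∧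
      (∀ τ, Ψ τ ≠ 0) ∧ HasExp 1 Ψ (c.map P.ring.subtype) ∧
      (∀ e, IsAlgebraic ℚ ((PowerSeries.coeff e c : P.ring) : ℂ)) ∧
      IsUnit c ∧ c.map P.res ≠ 0 ∧
      (∀ (M : ℕ) [NeZero M] (haux : AuxLevel M 2), M.Coprime 3 →
        ∃ u : BRing M P.ring, IsUnit u ∧ (u : ℍ → ℂ) = fun τ => Ψ τ / auxW haux τ ^ 2) ∧
      ∀ ℓ : ℕ, ℓ.Prime → ℓ ≠ 2 → ∀ n : ℤ,
        heckeC ℓ (thetaLog (HahnSeries.ofPowerSeries ℤ _ (c.map P.res))) n =
          ((ℓ : IsLocalRing.ResidueField P.ring) + 1) *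
            (thetaLog (HahnSeries.ofPowerSeries ℤ _ (c.map P.res))).coeff n := by
  obtain ⟨hmem, hu⟩ := psiSer_coeff_mem (P.goodRoot (M := 2) (by decide))
  set c : PowerSeries P.ring := PowerSeries.mk fun e => ⟨_, hmem e⟩
  have hc : c.map P.ring.subtype = psiSer := PowerSeries.ext fun e => by simp [c]
  have hcu : IsUnit c := by
    rw [PowerSeries.isUnit_iff_constantCoeff]
    refine IsUnit.of_mul_eq_one ⟨_, hu.2.2⟩ (Subtype.ext ?_)
    rw [← PowerSeries.coeff_zero_eq_constantCoeff_apply]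
    simp [c, mul_inv_cancel₀ hu.1]
  have hres : c.map P.res ≠ 0 := (hcu.map (PowerSeries.map P.res)).ne_zero
  refine ⟨psiTwo, c, isTwist_psiTwo, psiTwo_ne_zero, by rw [hc]; exact hasExp_psiTwo,
    fun e => by simpa [c] using isAlgebraic_coeff_psiSer e, hcu, hres,
    fun M _ haux hM => exists_isUnit_psiTwo haux (P.goodRoot hM), fun ℓ hℓ h2 n => ?_⟩
  obtain ⟨a, ha⟩ := thetaPS_psiSer
  obtain ⟨d, hd⟩ := hcu.exists_right_inv
  set g := thetaPS c * d
  have hg : thetaPS c = c * g := by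
    show _ = c * (thetaPS c * d)
    rw [mul_left_comm, hd, mul_one]
  have hgC : g.map P.ring.subtype = PowerSeries.C (3⁻¹ : ℂ) * e2Ser.map (Int.castRingHom ℂ) +
      PowerSeries.C a * (epSer 2).map (Int.castRingHom ℂ) := by
    refine mul_left_cancel₀ (a := psiSer) ?_ ?_
    · rw [← hc]
      exact (hcu.map (PowerSeries.map P.ring.subtype)).ne_zero
    · rw [← ha, ← hc, ← map_mul, ← hg, map_thetaPS]
  have heig : EigPS ℓ ((ℓ : P.ring) + 1) g := by
    refine EigPS.of_map (f := P.ring.subtype) Subtype.coe_injective ?_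
    rw [hgC]
    have e : P.ring.subtype ((ℓ : P.ring) + 1) = (Int.castRingHom ℂ) ((ℓ : ℤ) + 1) := by simp
    rw [e]
    exact (((eig_e2Ser hℓ).map _).const_mul _).add (((eig_epSer hℓ h2).map _).const_mul _)
  have hg' := congrArg (PowerSeries.map P.res) hg
  rw [map_mul, map_thetaPS] at hg'
  rw [thetaLog_ofPowerSeries hres hg']
  simpa using (heig.map P.res).heckeC hℓ.pos n

end FermatAgent.BAD.AtP
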