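import Fermat.Agent.BAD.AtP.Curve.EigenRed
import Fermat.Agent.BAD.Deriv
import Fermat.Agent.BAD.Lift.Residue
import Fermat.Agent.BAD.Toric.Bal
import Fermat.Agent.Period.Eisenstein.EisensteinForm

/-!
# The logarithmic derivative of the discriminant is an eigen series

`θ Δ / Δ = E₂` has eigenvalue `ℓ + 1` for the Hecke operator of weight two at every prime `ℓ`,
over every field; so has `E₂ (q) - p E₂ (q ^ p)` for `ℓ ≠ p`.
-/

set_option autoImplicit false

open UpperHalfPlane hiding I
open CongruenceSubgroup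
open scoped MatrixGroups ModularForm Manifold ArithmeticFunction.sigma Derivative
open ModularCurve (coeffMap)
open ModularForm (E E₄ E₆ discriminant_eq_E₄_cube_sub_E₆_sq)
open EisensteinSeries (E2)

noncomputable section

namespace FermatAgent.BAD.AtP

open FermatAgent.ES (HasExp)
open FermatAgent.Period.Eis (e2Ser epSer epFun sigP)

/-- `q d/dq` on power series. -/
def thetaPS {R : Type*} [CommRing R] (c : PowerSeries R) : PowerSeries R :=
  PowerSeries.mk fun e => (e : R) * PowerSeries.coeff e c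

/-- `θ` commutes with homomorphisms of the coefficients. -/
theorem map_thetaPS {R S : Type*} [CommRing R] [CommRing S] (f : R →+* S) (c : PowerSeries R) :
    (thetaPS c).map f = thetaPS (c.map f) := by
  ext n
  simp [thetaPS]

/-- The logarithmic derivative `θ s / s`. -/
def thetaLog {k : Type*} [Field k] (s : LaurentSeries k) : LaurentSeries k := thetaSer s / s

/-- The logarithmic derivative from an identity `θ c = c g`. -/
theorem thetaLog_ofPowerSeries {k : Type*} [Field k] {c g : PowerSeries k} (hc : c ≠ 0)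
    (h : thetaPS c = c * g) :
    thetaLog (HahnSeries.ofPowerSeries ℤ k c) = HahnSeries.ofPowerSeries ℤ k g := by
  have hne : HahnSeries.ofPowerSeries ℤ k c ≠ 0 :=
    (map_ne_zero_iff _ HahnSeries.ofPowerSeries_injective).mpr hc
  rw [thetaLog, thetaSer_ofPowerSeries, show (PowerSeries.mk fun e : ℕ => (e : k) *
    PowerSeries.coeff e c) = thetaPS c from rfl, h, map_mul, mul_div_cancel_left₀ _ hne]

section Eig

variable {R : Type*} [CommRing R]

/-- The series is an eigen series of the Hecke operator of weight two at `ℓ`. -/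
def EigPS (ℓ : ℕ) (b : R) (c : PowerSeries R) : Prop :=
  ∀ m : ℕ, PowerSeries.coeff (m * ℓ) c +
    (if ℓ ∣ m then (ℓ : R) * PowerSeries.coeff (m / ℓ) c else 0) = b * PowerSeries.coeff m c

variable {ℓ : ℕ} {b : R} {c d : PowerSeries R}

/-- Eigen series with the same eigenvalue are closed under sums. -/
theorem EigPS.add (hc : EigPS ℓ b c) (hd : EigPS ℓ b d) : EigPS ℓ b (c + d) := fun m => by
  have h1 := hc m
  have h2 := hd m
  split_ifs at h1 h2 ⊢ <;> simp only [map_add] <;> linear_combination h1 + h2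

/-- A constant multiple of an eigen series is one. -/
theorem EigPS.const_mul (a : R) (hc : EigPS ℓ b c) : EigPS ℓ b (PowerSeries.C a * c) := fun m => by
  have h1 := hc m
  split_ifs at h1 ⊢ <;> simp only [PowerSeries.coeff_C_mul] <;> linear_combination a * h1

/-- The image of an eigen series under a homomorphism of the coefficients is one. -/
theorem EigPS.map {S : Type*} [CommRing S] (f : R →+* S) (hc : EigPS ℓ b c) :
    EigPS ℓ (f b) (c.map f) := fun m => by
  have h1 := congrArg f (hc m)
  split_ifs at h1 ⊢ <;>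
    simpa only [map_add, map_mul, map_natCast, map_zero, add_zero, PowerSeries.coeff_map] using h1

/-- A series whose image under an injective homomorphism is an eigen series is one. -/
theorem EigPS.of_map {S : Type*} [CommRing S] {f : R →+* S} (hf : Function.Injective f)
    (hc : EigPS ℓ (f b) (c.map f)) : EigPS ℓ b c := fun m => hf (by
  have h1 := hc m
  split_ifs at h1 ⊢ <;>
    simpa only [map_add, map_mul, map_natCast, map_zero, add_zero, PowerSeries.coeff_map] using h1)

/-- An eigen series is one for the Hecke operator on Laurent coefficients. -/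
theorem EigPS.heckeC (hℓ : 0 < ℓ) (hc : EigPS ℓ b c) (n : ℤ) :
    heckeC ℓ (HahnSeries.ofPowerSeries ℤ R c) n =
      b * (HahnSeries.ofPowerSeries ℤ R c).coeff n := by
  have hℓ' : (0 : ℤ) < ℓ := by exact_mod_cast hℓ
  rw [AtP.heckeC]
  rcases lt_or_ge n 0 with hn | hn
  · rw [ModularCurve.ofPowerSeries_coeff_of_neg _ (mul_neg_of_neg_of_pos hn hℓ'),
      ModularCurve.ofPowerSeries_coeff_of_neg _ hn,
      ModularCurve.ofPowerSeries_coeff_of_neg _ (Int.ediv_neg_of_neg_of_pos hn hℓ')]
    simp
  · lift n to ℕ using hn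
    have h := hc n
    rw [show (n : ℤ) * (ℓ : ℤ) = ((n * ℓ : ℕ) : ℤ) by push_cast; ring,
      HahnSeries.ofPowerSeries_apply_coeff, HahnSeries.ofPowerSeries_apply_coeff,
      ← Int.natCast_div, HahnSeries.ofPowerSeries_apply_coeff]
    simp only [Int.natCast_dvd_natCast]
    exact h

end Eig

/-- `E₂` is an eigen series with eigenvalue `ℓ + 1`. -/
theorem eig_e2Ser {ℓ : ℕ} (hℓ : ℓ.Prime) : EigPS ℓ ((ℓ : ℤ) + 1) e2Ser := by
  intro m
  simp only [e2Ser, PowerSeries.coeff_mk]
  rcases Nat.eq_zero_or_pos m with rfl | hm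
  · simp
    ring
  rw [if_neg (Nat.mul_ne_zero hm.ne' hℓ.ne_zero), if_neg hm.ne', mul_comm m ℓ,
    Period.Eis.sigma_one_prime_mul hℓ hm.ne']
  split_ifs with h h0
  · obtain ⟨r, rfl⟩ := h
    rw [Nat.mul_div_cancel_left _ hℓ.pos] at h0
    simp [h0] at hm
  · obtain ⟨r, rfl⟩ := h
    rw [Nat.mul_div_cancel_left _ hℓ.pos] at h0 ⊢
    rw [Nat.ordCompl_mul, Period.Eis.ordCompl_prime_self hℓ, one_mul,
      Period.Eis.sigma_one_prime_mul hℓ h0]
    push_cast
    ring
  · rw [Nat.factorization_eq_zero_of_not_dvd h, pow_zero, Nat.div_one]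
    push_cast
    ring

/-- The `p`-stabilised `E₂` is an eigen series with eigenvalue `ℓ + 1` away from `p`. -/
theorem eig_epSer {p : ℕ} [Fact p.Prime] {ℓ : ℕ} (hℓ : ℓ.Prime) (hne : ℓ ≠ p) :
    EigPS ℓ ((ℓ : ℤ) + 1) (epSer p) := by
  intro m
  rcases Nat.eq_zero_or_pos m with rfl | hm
  · simp only [zero_mul, dvd_zero, if_true, Nat.zero_div, Period.Eis.coeff_zero_epSer]
    ring
  have e := Period.Eis.sigP_prime_mul (p := p) hℓ hne hm.ne'
  rw [Period.Eis.coeff_epSer (Nat.mul_ne_zero hm.ne' hℓ.ne_zero), Period.Eis.coeff_epSer hm.ne',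
    mul_comm m ℓ]
  split_ifs at e ⊢ with h
  · obtain ⟨r, rfl⟩ := h
    rw [Nat.mul_div_cancel_left _ hℓ.pos] at e ⊢
    rw [Period.Eis.coeff_epSer (right_ne_zero_of_mul hm.ne')]
    have e' := congrArg (Nat.cast : ℕ → ℤ) e
    push_cast at e'
    linear_combination 24 * e'
  · have e' := congrArg (Nat.cast : ℕ → ℤ) e
    push_cast at e'
    linear_combination 24 * e'

/-- The expansion of `E₂` at `∞`. -/
theorem hasExp_E2 : HasExp 1 E2 (e2Ser.map (Int.castRingHom ℂ)) := fun τ => by
  refine (EisensteinSeries.hasSum_qExpansion_E2 (z := τ)).congr_fun fun m => ?_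
  rw [PowerSeries.coeff_map, e2Ser, PowerSeries.coeff_mk]
  split <;> simp [ES.qm, Function.Periodic.qParam]

theorem D_discriminant (τ : ℍ) : D (ModularForm.discriminant : ℍ → ℂ) τ =
    E2 τ * ModularForm.discriminant τ := by
  have hfun : (ModularForm.discriminant : ℍ → ℂ) = (1728 : ℂ)⁻¹ • ((⇑E₄) ^ 3 - (⇑E₆) ^ 2) := by
    funext z
    simp [discriminant_eq_E₄_cube_sub_E₆_sq z, div_eq_inv_mul]
  rw [discriminant_eq_E₄_cube_sub_E₆_sq τ, hfun,
    Derivative.normalizedDerivOfComplex_smul _ _
      (((ModularFormClass.holo E₄).pow 3).sub ((ModularFormClass.holo E₆).pow 2)),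
    Derivative.normalizedDerivOfComplex_sub _ _ ((ModularFormClass.holo E₄).pow 3)
      ((ModularFormClass.holo E₆).pow 2),
    Derivative.normalizedDerivOfComplex_pow _ 3 (ModularFormClass.holo E₄),
    Derivative.normalizedDerivOfComplex_pow _ 2 (ModularFormClass.holo E₆)]
  simp only [Pi.smul_apply, Pi.sub_apply, Pi.mul_apply, Pi.pow_apply, smul_eq_mul,
    Pi.natCast_def, Curve.D_E4, Curve.D_E6]
  ring

theorem thetaPS_delta :
    thetaPS (Lift.deltaPS ℤ) = Lift.deltaPS ℤ * e2Ser := by
  refine PowerSeries.map_injective (Int.castRingHom ℂ) Int.cast_injective ?_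
  rw [map_thetaPS, map_mul, Lift.map_deltaPS]
  have h1 : HasExp 1 (D (ModularForm.discriminant : ℍ → ℂ)) (thetaPS (Lift.deltaPS ℂ)) :=
    (hasExp_deriv Toric.hasExp_delta).congr_fun fun τ => by simp
  refine h1.series_unique ((Toric.hasExp_delta.mul hasExp_E2).congr_fun fun τ => ?_)
  rw [D_discriminant, Pi.mul_apply, mul_comm]

/-- The logarithmic derivative of the discriminant over any field. -/
theorem thetaLog_delta (k : Type*) [Field k] :
    thetaLog (coeffMap (Int.castRingHom k) Lift.deltaZ) =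
      HahnSeries.ofPowerSeries ℤ k (e2Ser.map (Int.castRingHom k)) := by
  rw [Lift.coeffMap_deltaZ, show PowerSeries.X * ModularCurve.dedekindEtaUnit.map
    (Int.castRingHom k) = Lift.deltaPS k from rfl]
  refine thetaLog_ofPowerSeries (Lift.deltaPS_ne_zero k) ?_
  have h := congrArg (PowerSeries.map (Int.castRingHom k)) thetaPS_delta
  rwa [map_thetaPS, map_mul, Lift.map_deltaPS] at h

/-- `θ Δ / Δ` is an eigen series with eigenvalue `ℓ + 1`. -/
theorem heckeC_thetaLog_delta (k : Type*) [Field k] {ℓ : ℕ} (hℓ : ℓ.Prime) (n : ℤ) :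
    heckeC ℓ (thetaLog (coeffMap (Int.castRingHom k) Lift.deltaZ)) n =
      ((ℓ : k) + 1) * (thetaLog (coeffMap (Int.castRingHom k) Lift.deltaZ)).coeff n := by
  rw [thetaLog_delta]
  have h := ((eig_e2Ser hℓ).map (Int.castRingHom k)).heckeC hℓ.pos n
  simpa using h

end FermatAgent.BAD.AtP
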